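import Mathlib
import Fermat.Agent.LT.T3.M.Spec
import Fermat.Agent.LT.T3.H922.OutsideCoset

/-!
# Row LT, tower T3, station T3.18M, leaf M.6 `OutsideCosetMC` (helper474, SPARE, OFF-MAIN)

`outsideCosetMC474 (K) : M.OutsideCosetMC K` = the frozen Prop of `LT/T3/M/Spec.lean`
(helper14@7627ebb18, sha256 bf15afa4), VERBATIM, unconditional.

The single-place proof of helper922 (`outsideCosetC922`, local core `inU_coset922`) with
`v ≠ v₀` replaced by `v ∉ P`: under `FrameM`, `(a₀) = ∏_{w ∈ P} 𝔭_w^{e_w}`, so `a₀ ∉ 𝔭_v` for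
`v ∉ P` (a prime containing a product contains a factor), and `a₀ ≡ 1 mod 𝔫`; hence `α` and
`α⁻¹` are `≡ 1 mod 𝔫 𝒪_v` at every `v ∉ P`.
-/

set_option autoImplicit false
set_option linter.style.haveILetI false

open IsDedekindDomain NumberField MeasureTheory
open Fermat.Agent.LT.H556.A0
open scoped MatrixGroups

noncomputable section

namespace Fermat.Agent.LT.T3.M.H474

open Fermat.Agent.LT.T3.AS Fermat.Agent.LT.T3.AS.N893 Fermat.Agent.LT.T1
open Fermat.Agent.LT.T3.H922

variable {K : Type} [Field K] [NumberField K]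

theorem outsideUM_iff474 (𝔫 : Ideal (𝓞 K)) (P : Finset (HeightOneSpectrum (𝓞 K))) (h : G K) :
    M.OutsideUM K 𝔫 P h ↔
      ∀ v : HeightOneSpectrum (𝓞 K), v ∉ P → InU922 (idealClosure 𝔫 v) (finGL K v h) := by
  constructor
  · intro H v hv
    refine ⟨fun i j => (H v hv i j).1, fun i j => ?_⟩
    rw [← map_inv]
    exact (H v hv i j).2
  · intro H v hv i j
    refine ⟨(H v hv).1 i j, ?_⟩
    have h2 := (H v hv).2 i j
    rw [← map_inv] at h2
    exact h2

/-- Under `FrameM`, `a₀` does not lie in the primes `v ∉ P`. -/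
theorem a0_not_mem474 {𝔫 : Ideal (𝓞 K)} {P : Finset (HeightOneSpectrum (𝓞 K))}
    {e : HeightOneSpectrum (𝓞 K) → ℕ} {a₀ : 𝓞 K} {α : Kˣ} (hF : M.FrameM K 𝔫 P e a₀ α)
    {v : HeightOneSpectrum (𝓞 K)} (hv : v ∉ P) : a₀ ∉ v.asIdeal := by
  intro ha
  have h1 : ∏ w ∈ P, w.asIdeal ^ e w ≤ v.asIdeal := by
    rw [← hF.span, Ideal.span_le]
    intro x hx
    rw [Set.mem_singleton_iff] at hx
    rw [hx]
    exact ha
  obtain ⟨w, hw, hle⟩ := (Ideal.IsPrime.prod_le v.isPrime).1 h1
  have h2 : w.asIdeal ≤ v.asIdeal := v.isPrime.le_of_pow_le hle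
  have h3 : w.asIdeal = v.asIdeal := w.isMaximal.eq_of_le v.isPrime.ne_top h2
  have h4 : w = v := HeightOneSpectrum.ext h3
  exact hv (h4 ▸ hw)

/-- `α ≡ 1` and `α⁻¹ ≡ 1` modulo `𝔫 𝒪_v` at `v ∉ P`. -/
theorem alpha_mem_unitsOne474 {𝔫 : Ideal (𝓞 K)} {P : Finset (HeightOneSpectrum (𝓞 K))}
    {e : HeightOneSpectrum (𝓞 K) → ℕ} {a₀ : 𝓞 K} {α : Kˣ} (hF : M.FrameM K 𝔫 P e a₀ α)
    {v : HeightOneSpectrum (𝓞 K)} (hv : v ∉ P) :
    finU K v (ratUnit K α) ∈ unitsOne922 (isIdl_idealClosure922 𝔫 v) := by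
  have hI := isIdl_idealClosure922 𝔫 v
  have hu : ((finU K v (ratUnit K α) : (v.adicCompletion K)ˣ) : v.adicCompletion K)
      = imO922 v a₀ := by
    rw [finU_ratUnit_coe922, hF.coe]
    rfl
  have h1 : ((finU K v (ratUnit K α) : (v.adicCompletion K)ˣ) : v.adicCompletion K) - 1
      ∈ idealClosure 𝔫 v := by
    have h2 : imO922 v a₀ - 1 = imO922 v (a₀ - 1) := by
      unfold imO922
      rw [map_sub, map_sub, map_one, map_one]
    rw [hu, h2]
    exact imO_mem_idealClosure922 𝔫 v hF.cong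
  have hval : Valued.v (imO922 v a₀) = 1 := by
    rw [valued_imO922]
    refine le_antisymm (v.valuation_le_one a₀) ?_
    by_contra hlt
    rw [not_le] at hlt
    exact a0_not_mem474 hF hv ((v.valuation_lt_one_iff_mem a₀).mp hlt)
  have hinvO : (((finU K v (ratUnit K α))⁻¹ : (v.adicCompletion K)ˣ) : v.adicCompletion K)
      ∈ intO922 v := by
    show _ ∈ v.adicCompletionIntegers K
    rw [HeightOneSpectrum.mem_adicCompletionIntegers, Units.val_inv_eq_inv_val, map_inv₀, hu,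
      hval, inv_one]
  refine ⟨h1, ?_⟩
  have h3 : (((finU K v (ratUnit K α))⁻¹ : (v.adicCompletion K)ˣ) : v.adicCompletion K) - 1
      = -((((finU K v (ratUnit K α))⁻¹ : (v.adicCompletion K)ˣ) : v.adicCompletion K)
          * (((finU K v (ratUnit K α) : (v.adicCompletion K)ˣ) : v.adicCompletion K) - 1)) := by
    rw [mul_sub, Units.inv_mul, mul_one]
    ring
  rw [h3]
  exact hI.neg (hI.smul hinvO h1)

/-- **M.6 = N.3 multi (the condition outside `P ∪ S_∞`).** -/
theorem outsideCosetMC474 (K : Type) [Field K] [NumberField K] : M.OutsideCosetMC K := by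
  intro 𝔫 P e a₀ α hF k₁ k' hk₁ hk' c₁ c₂ j j' X X' hout
  rw [outsideUM_iff474] at hout ⊢
  have key : ∀ v : HeightOneSpectrum (𝓞 K), v ∉ P →
      (InU922 (idealClosure 𝔫 v)
          (finGL K v (k₁ * upperGL (c₁ * ratUnit K α ^ j') c₂ X' * k'))
        ↔ finHom K v (X' - X) ∈ idealClosure 𝔫 v) := by
    intro v hv
    have hI := isIdl_idealClosure922 𝔫 v
    have h0 := hout v hv
    rw [map_mul, map_mul, finGL_upperGL922, map_mul, map_zpow] at h0
    rw [map_mul, map_mul, finGL_upperGL922, map_mul, map_zpow, map_sub]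
    have ha := Subgroup.zpow_mem _ (alpha_mem_unitsOne474 hF hv) (j' - j)
    have hfac : finU K v c₁ * finU K v (ratUnit K α) ^ j'
        = (finU K v c₁ * finU K v (ratUnit K α) ^ j) * finU K v (ratUnit K α) ^ (j' - j) := by
      rw [mul_assoc, ← zpow_add]
      congr 2
      ring
    rw [hfac]
    exact inU_coset922 hI (inGLO_of_stdCompact922 hk₁ v) (inGLO_of_stdCompact922 hk' v) _ _ _ _ _
      ha.1 ha.2 h0
  constructor
  · intro H v hv
    exact (key v hv).mp (H v hv)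
  · intro H v hv
    exact (key v hv).mpr (H v hv)

example (K : Type) [Field K] [NumberField K] : M.OutsideCosetMC K := outsideCosetMC474 K

end Fermat.Agent.LT.T3.M.H474

end
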