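import Fermat.Agent.LT.T3.M.Spec
import Fermat.Agent.LT.T3.H846.PureUpper

/-!
# Row LT, tower T3, station T3.18M, leaf M.5 `PureUpperMC` (helper474, SPARE, OFF-MAIN)

`pureUpperMC474 (K) : M.PureUpperMC K` = the frozen Prop of `LT/T3/M/Spec.lean`
(helper14@7627ebb18, sha256 bf15afa4), VERBATIM, unconditional.

The single-place proof of helper846 (`pureUpperC846`) with the factor at `v₀` replaced by the
product over `v ∈ P`: `finGL`, `infGL` are multiplicative and map `upperGL` to `upperGL`
(`finGL_upperGL846`, `infGL_upperGL846`); bi-invariance of `f₀ v` (`v ∈ P`) and of `F w`.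
-/

set_option autoImplicit false
set_option linter.style.haveILetI false
set_option linter.unusedSectionVars false

open IsDedekindDomain NumberField MeasureTheory
open Fermat.Agent.LT.H556.A0
open Fermat.Agent.LT.T3.AS Fermat.Agent.LT.T3.AS.N893 Fermat.Agent.LT.T3.AS.N893.H846

noncomputable section

namespace Fermat.Agent.LT.T3.M.H474

variable (K : Type) [Field K] [NumberField K]

/-- **M.5 = N.2 multi (the pure tensor on `K⁰ B K⁰`).** -/
theorem pureUpperMC474 : M.PureUpperMC K := by
  intro 𝔫 P f₀ F hf₀ hF k₁ k' hk₁ hk' c₁ c₂ X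
  have h0 : ∀ v ∈ P, f₀ v (finGL K v (k₁ * upperGL c₁ c₂ X * k'))
      = f₀ v (upperGL (finU K v c₁) (finU K v c₂) (finHom K v X)) := by
    intro v hv
    rw [map_mul, map_mul, finGL_upperGL846]
    exact hf₀ v hv _ _ _ (isIntGL_finGL846 K v k₁ hk₁) (isIntGL_finGL846 K v k' hk')
  have hw : ∀ w : InfinitePlace K, F w (infGL K w (k₁ * upperGL c₁ c₂ X * k'))
      = F w (upperGL (infU K w c₁) (infU K w c₂) (infHom K w X)) := by
    intro w
    rw [map_mul, map_mul, infGL_upperGL846]
    exact (hF w).bi_inv _ _ _ (isUnitary2_infGL846 K w k₁ hk₁) (isUnitary2_infGL846 K w k' hk')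
  unfold M.pureFnM
  by_cases h : M.OutsideUM K 𝔫 P (k₁ * upperGL c₁ c₂ X * k')
  · rw [if_pos h, if_pos h, one_mul, Finset.prod_congr rfl h0]
    congr 1
    exact Finset.prod_congr rfl (fun w _ => hw w)
  · rw [if_neg h, if_neg h, zero_mul, zero_mul]

example : M.PureUpperMC K := pureUpperMC474 K

end Fermat.Agent.LT.T3.M.H474

end
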