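import Mathlib
import Fermat.Agent.LT.T3.M.Spec
import Fermat.Agent.LT.T3.H57.ROp

/-!
# Row LT, tower T3, station T3.18M, leaf M.4 `ROpMC` (helper474, SPARE, OFF-MAIN)

`rOpMC474 (K) : M.ROpMC K` = the frozen Prop of `LT/T3/M/Spec.lean` (helper14@7627ebb18,
sha256 bf15afa4), VERBATIM, unconditional.

Route: INDUCTION ON `P`, the constant `κ₁` is the constant `c` of `pushforward_haar57`
(helper57; it does not depend on `P`).  For every finite set `Q` of places prime to `𝔫` and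
every `y`:

  `∫ φ(y x) pureFnM_Q(x) dμ(x) = c (∏_{v ∈ Q} laurent (A v) (z₁ v) (z₂ v)) (∏_w C_w) φ(y)`.

* `Q = ∅`: `pureFnM_∅ = pureOne57` and `integral_pureOne57` (helper57).
* `Q = {v₀} ∪ Q'`: `pureFnM_Q(x) = ∑_{h ∈ R_{v₀}} f₀_{v₀}(h) pureFnM_{Q'}(ι₀(h)⁻¹ x)`
  (`pureFnM_insert474`), left invariance of `μ`, the induction hypothesis at `y ι₀(h)`, and
  `AS.HasSatakeEigen` at `v₀` for the local eigenfunction `h ↦ φ(y ι₀(h))` (`isLocEigen_of57`).
-/

set_option autoImplicit false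
set_option linter.style.haveILetI false
set_option linter.unusedSectionVars false

open IsDedekindDomain NumberField Topology MeasureTheory
open Fermat.Agent.LT.H556.A0
open Fermat.Agent.LT.T1 Fermat.Agent.LT.T1.H724 Fermat.Agent.LT.T1.H793
open Fermat.Agent.LT.T3
open Fermat.Agent.LT.T3.H57
open scoped ENNReal

noncomputable section

namespace Fermat.Agent.LT.T3.M.H474

variable {K : Type} [Field K] [NumberField K]

/-- `OutsideUM` in terms of the local components. -/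
theorem outsideUM_iff_loc474 (𝔫 : Ideal (𝓞 K)) (P : Finset (HeightOneSpectrum (𝓞 K)))
    (x : G K) :
    M.OutsideUM K 𝔫 P x ↔
      ∀ v : HeightOneSpectrum (𝓞 K), v ∉ P → LocU57 𝔫 v (AS.finGL K v x) := by
  constructor
  · intro h v hv i j
    rw [finGL_val57, finGL_inv_val57]
    exact h v hv i j
  · intro h v hv i j
    have := h v hv i j
    rwa [finGL_val57, finGL_inv_val57] at this

/-- For `P = ∅` the pure tensor is `pureOne57`. -/
theorem pureFnM_empty474 (𝔫 : Ideal (𝓞 K))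
    (f₀ : ∀ v : HeightOneSpectrum (𝓞 K), GL (Fin 2) (v.adicCompletion K) → ℂ)
    (F : InfinitePlace K → GL (Fin 2) ℂ → ℂ) (x : G K) :
    M.pureFnM K 𝔫 ∅ f₀ F x = pureOne57 𝔫 F x := by
  classical
  have hiff : M.OutsideUM K 𝔫 ∅ x ↔ InU057 𝔫 x := by
    rw [outsideUM_iff_loc474, inU0_iff_loc57]
    constructor
    · intro h v
      exact h v (Finset.notMem_empty v)
    · intro h v _
      exact h v
  unfold M.pureFnM pureOne57
  by_cases hx : InU057 𝔫 x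
  · rw [if_pos (hiff.2 hx), if_pos hx, Finset.prod_empty, one_mul]
  · rw [if_neg (fun h => hx (hiff.1 h)), if_neg hx]

/-- The condition outside `P` after a translation at `v₀ ∉ P`, `v₀ ∤ 𝔫`. -/
theorem outsideUM_finEmb_inv_mul_iff474 [DecidableEq (HeightOneSpectrum (𝓞 K))]
    (𝔫 : Ideal (𝓞 K))
    (P : Finset (HeightOneSpectrum (𝓞 K))) (v₀ : HeightOneSpectrum (𝓞 K)) (hv₀P : v₀ ∉ P)
    (hv₀ : ¬ v₀.asIdeal ∣ 𝔫) (h : GL (Fin 2) (v₀.adicCompletion K)) (x : G K) :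
    M.OutsideUM K 𝔫 P ((finEmb57 v₀ h)⁻¹ * x) ↔
      M.OutsideUM K 𝔫 (insert v₀ P) x ∧ AS.IsIntGL v₀ (h⁻¹ * AS.finGL K v₀ x) := by
  rw [outsideUM_iff_loc474, outsideUM_iff_loc474]
  have hne : ∀ v, v ≠ v₀ → AS.finGL K v ((finEmb57 v₀ h)⁻¹ * x) = AS.finGL K v x := by
    intro v hv
    rw [map_mul, map_inv, finGL_finEmb_ne57 v₀ h v hv, inv_one, one_mul]
  have heq : AS.finGL K v₀ ((finEmb57 v₀ h)⁻¹ * x) = h⁻¹ * AS.finGL K v₀ x := by
    rw [map_mul, map_inv, finGL_finEmb57]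
  constructor
  · intro hall
    refine ⟨fun v hv => ?_, ?_⟩
    · have hv' : v ≠ v₀ ∧ v ∉ P := by
        rw [Finset.mem_insert, not_or] at hv
        exact hv
      rw [← hne v hv'.1]
      exact hall v hv'.2
    · rw [← heq, ← locU_iff_isIntGL57 𝔫 v₀ hv₀]
      exact hall v₀ hv₀P
  · rintro ⟨hout, hint⟩ v hv
    by_cases hvv : v = v₀
    · subst hvv
      rw [heq, locU_iff_isIntGL57 𝔫 v hv₀]
      exact hint
    · rw [hne v hvv]
      refine hout v ?_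
      rw [Finset.mem_insert, not_or]
      exact ⟨hvv, hv⟩

/-- `pureFnM_{{v₀} ∪ P} = ∑_{h ∈ R} f₀_{v₀}(h) L_{ι₀(h)} pureFnM_P`. -/
theorem pureFnM_insert474 [DecidableEq (HeightOneSpectrum (𝓞 K))]
    (𝔫 : Ideal (𝓞 K)) (P : Finset (HeightOneSpectrum (𝓞 K)))
    (v₀ : HeightOneSpectrum (𝓞 K)) (hv₀P : v₀ ∉ P) (hv₀ : ¬ v₀.asIdeal ∣ 𝔫)
    (f₀ : ∀ v : HeightOneSpectrum (𝓞 K), GL (Fin 2) (v.adicCompletion K) → ℂ)
    (F : InfinitePlace K → GL (Fin 2) ℂ → ℂ) (hf₀ : AS.IsBiIntInv v₀ (f₀ v₀))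
    (R : Finset (GL (Fin 2) (v₀.adicCompletion K))) (hR : AS.IsRepSys v₀ (f₀ v₀) R) (x : G K) :
    M.pureFnM K 𝔫 (insert v₀ P) f₀ F x
      = ∑ h ∈ R, f₀ v₀ h * M.pureFnM K 𝔫 P f₀ F ((finEmb57 v₀ h)⁻¹ * x) := by
  classical
  have hinf : ∀ (h : GL (Fin 2) (v₀.adicCompletion K)) (w : InfinitePlace K),
      AS.infGL K w ((finEmb57 v₀ h)⁻¹ * x) = AS.infGL K w x := by
    intro h w
    rw [map_mul, map_inv, infGL_finEmb57, inv_one, one_mul]
  have hfin : ∀ (h : GL (Fin 2) (v₀.adicCompletion K)),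
      ∏ v ∈ P, f₀ v (AS.finGL K v ((finEmb57 v₀ h)⁻¹ * x)) = ∏ v ∈ P, f₀ v (AS.finGL K v x) := by
    intro h
    refine Finset.prod_congr rfl fun v hv => ?_
    have hvv : v ≠ v₀ := fun hh => hv₀P (hh ▸ hv)
    rw [map_mul, map_inv, finGL_finEmb_ne57 v₀ h v hvv, inv_one, one_mul]
  obtain ⟨T, hT⟩ : ∃ T : ℂ, T = (∏ v ∈ P, f₀ v (AS.finGL K v x))
      * ∏ w : InfinitePlace K, F w (AS.infGL K w x) := ⟨_, rfl⟩
  have hterm : ∀ h : GL (Fin 2) (v₀.adicCompletion K),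
      M.pureFnM K 𝔫 P f₀ F ((finEmb57 v₀ h)⁻¹ * x)
        = if M.OutsideUM K 𝔫 (insert v₀ P) x ∧ AS.IsIntGL v₀ (h⁻¹ * AS.finGL K v₀ x)
          then T else 0 := by
    intro h
    unfold M.pureFnM
    simp only [outsideUM_finEmb_inv_mul_iff474 𝔫 P v₀ hv₀P hv₀, hinf, hfin, hT]
  have hlhs : M.pureFnM K 𝔫 (insert v₀ P) f₀ F x
      = if M.OutsideUM K 𝔫 (insert v₀ P) x then f₀ v₀ (AS.finGL K v₀ x) * T else 0 := by
    unfold M.pureFnM
    rw [Finset.prod_insert hv₀P, hT, mul_assoc]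
  simp only [hterm]
  rw [hlhs]
  by_cases hout : M.OutsideUM K 𝔫 (insert v₀ P) x
  · simp only [hout, true_and, if_true]
    have hval : ∀ h : GL (Fin 2) (v₀.adicCompletion K),
        AS.IsIntGL v₀ (h⁻¹ * AS.finGL K v₀ x) → f₀ v₀ h = f₀ v₀ (AS.finGL K v₀ x) := by
      intro h hint
      have := hf₀ 1 (h⁻¹ * AS.finGL K v₀ x) h (isIntGL_one57 v₀) hint
      rw [one_mul, mul_inv_cancel_left] at this
      exact this.symm
    by_cases h0 : f₀ v₀ (AS.finGL K v₀ x) = 0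
    · rw [h0, zero_mul]
      symm
      refine Finset.sum_eq_zero fun h _ => ?_
      split_ifs with hint
      · rw [hval h hint, h0, zero_mul]
      · rw [mul_zero]
    · obtain ⟨h₀, hh₀, hint₀⟩ := hR.2 _ h0
      rw [Finset.sum_eq_single h₀]
      · rw [if_pos hint₀, hval h₀ hint₀]
      · intro h hh hne
        rw [if_neg, mul_zero]
        intro hint
        apply hne
        refine hR.1 h hh h₀ hh₀ ?_
        have := isIntGL_mul57 v₀ hint (isIntGL_inv57 v₀ hint₀)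
        rwa [mul_inv_rev, inv_inv, mul_assoc, mul_inv_cancel_left] at this
      · intro hh
        exact absurd hh₀ hh
  · simp only [hout, false_and, if_false, mul_zero, Finset.sum_const_zero]

/-- **M.4 `ROpMC`, unconditional.** -/
theorem rOpMC474 (K : Type) [Field K] [NumberField K] : M.ROpMC K := by
  classical
  letI : MeasurableSpace (G K) := borel (G K)
  haveI : BorelSpace (G K) := ⟨rfl⟩
  letI : MeasurableSpace (GL (Fin 2) ℂ) := borel (GL (Fin 2) ℂ)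
  haveI : BorelSpace (GL (Fin 2) ℂ) := ⟨rfl⟩
  haveI := secondCountable_GL2C57
  haveI := locallyCompact_GL2C57
  intro hK μ hμ μc hμc 𝔫 h𝔫 P hP
  haveI := hμ
  haveI := hμc
  obtain ⟨n, ⟨e⟩⟩ : ∃ n, Nonempty (InfinitePlace K ≃ Fin n) := ⟨_, ⟨Fintype.equivFin _⟩⟩
  obtain ⟨c, hc0, hc⟩ := pushforward_haar57 μ (Measure.pi fun _ : Fin n => μc)
    {x : G K | InU057 𝔫 x} (isOpen_inU057 𝔫 h𝔫) (piInf57 e) (continuous_piInf57 e)
    (embFin57 hK e) (piInf_embFin57 hK e) (fun t x hx => inU0_embFin_mul57 hK e 𝔫 t x hx)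
    (inU0_one57 𝔫) (fun C hC => measure_lt_top57 hK e 𝔫 μ C hC)
  refine ⟨(c : ℂ), by exact_mod_cast hc0.ne', ?_⟩
  intro A C f₀ F hf₀ hRex hA hF hC φ hφ a b z₁ z₂ he hab hb hb0 g
  have hB := fun y => integral_pureOne57 hK e 𝔫 h𝔫 μ μc c hc F hF C hC φ hφ y
  have key : ∀ Q : Finset (HeightOneSpectrum (𝓞 K)), Q ⊆ P → ∀ y : G K,
      Integrable (fun x => φ (y * x) * M.pureFnM K 𝔫 Q f₀ F x) μ ∧
        ∫ x, φ (y * x) * M.pureFnM K 𝔫 Q f₀ F x ∂μ
          = (c : ℂ) * (∏ v ∈ Q, AS.laurent (A v) (z₁ v) (z₂ v)) * (∏ w, C w) * φ y := by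
    intro Q
    induction Q using Finset.induction_on with
    | empty =>
      intro _ y
      have hfun : (fun x => φ (y * x) * M.pureFnM K 𝔫 ∅ f₀ F x)
          = fun x => φ (y * x) * pureOne57 𝔫 F x := by
        funext x
        rw [pureFnM_empty474]
      rw [hfun, Finset.prod_empty, mul_one]
      exact hB y
    | insert v₀ Q hv₀Q ih =>
      intro hsub y
      have hv₀P : v₀ ∈ P := hsub (Finset.mem_insert_self v₀ Q)
      have hQP : Q ⊆ P := fun v hv => hsub (Finset.mem_insert_of_mem hv)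
      have hv₀ : ¬ v₀.asIdeal ∣ 𝔫 := hP v₀ hv₀P
      obtain ⟨R, hR⟩ := hRex v₀ hv₀P
      have ihQ := ih hQP
      have hsum : ∀ x, φ (y * x) * M.pureFnM K 𝔫 (insert v₀ Q) f₀ F x
          = ∑ h ∈ R, f₀ v₀ h
              * (φ (y * x) * M.pureFnM K 𝔫 Q f₀ F ((finEmb57 v₀ h)⁻¹ * x)) := by
        intro x
        rw [pureFnM_insert474 𝔫 Q v₀ hv₀Q hv₀ f₀ F (hf₀ v₀ hv₀P) R hR x, Finset.mul_sum]
        exact Finset.sum_congr rfl fun h _ => by ring
      have hterm_int : ∀ h : GL (Fin 2) (v₀.adicCompletion K),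
          Integrable (fun x => φ (y * x)
            * M.pureFnM K 𝔫 Q f₀ F ((finEmb57 v₀ h)⁻¹ * x)) μ := by
        intro h
        have := ((ihQ (y * finEmb57 v₀ h)).1).comp_mul_left (finEmb57 v₀ h)⁻¹
        refine this.congr (Filter.Eventually.of_forall fun x => ?_)
        simp only [mul_assoc, mul_inv_cancel_left]
      have hterm : ∀ h : GL (Fin 2) (v₀.adicCompletion K),
          ∫ x, φ (y * x) * M.pureFnM K 𝔫 Q f₀ F ((finEmb57 v₀ h)⁻¹ * x) ∂μ
            = (c : ℂ) * (∏ v ∈ Q, AS.laurent (A v) (z₁ v) (z₂ v)) * (∏ w, C w)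
                * φ (y * finEmb57 v₀ h) := by
        intro h
        rw [← (ihQ (y * finEmb57 v₀ h)).2,
          ← integral_mul_left_eq_self
            (fun x => φ (y * finEmb57 v₀ h * x) * M.pureFnM K 𝔫 Q f₀ F x) (finEmb57 v₀ h)⁻¹]
        refine integral_congr_ae (Filter.Eventually.of_forall fun x => ?_)
        simp only [mul_assoc, mul_inv_cancel_left]
      have hfun : (fun x => φ (y * x) * M.pureFnM K 𝔫 (insert v₀ Q) f₀ F x)
          = fun x => ∑ h ∈ R, f₀ v₀ h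
              * (φ (y * x) * M.pureFnM K 𝔫 Q f₀ F ((finEmb57 v₀ h)⁻¹ * x)) := by
        funext x
        exact hsum x
      rw [hfun]
      refine ⟨integrable_finsetSum _ fun h _ => (hterm_int h).const_mul _, ?_⟩
      rw [integral_finsetSum _ (fun h _ => (hterm_int h).const_mul _)]
      simp_rw [integral_const_mul, hterm]
      have hS := hA v₀ hv₀P (fun u => φ (y * finEmb57 v₀ u)) (a v₀) (b v₀) (z₁ v₀) (z₂ v₀)
        (isLocEigen_of57 𝔫 v₀ hv₀ φ hφ (a v₀) (b v₀) (he v₀ hv₀P) y) (hab v₀ hv₀P)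
        (hb v₀ hv₀P) (hb0 v₀ hv₀P) R hR 1
      simp only [one_mul, map_one, mul_one] at hS
      rw [Finset.prod_insert hv₀Q]
      calc ∑ h ∈ R, f₀ v₀ h * ((c : ℂ) * (∏ v ∈ Q, AS.laurent (A v) (z₁ v) (z₂ v))
              * (∏ w, C w) * φ (y * finEmb57 v₀ h))
          = (c : ℂ) * (∏ v ∈ Q, AS.laurent (A v) (z₁ v) (z₂ v)) * (∏ w, C w)
              * ∑ h ∈ R, f₀ v₀ h * φ (y * finEmb57 v₀ h) := by
            rw [Finset.mul_sum]
            exact Finset.sum_congr rfl fun h _ => by ring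
        _ = (c : ℂ) * (AS.laurent (A v₀) (z₁ v₀) (z₂ v₀)
              * ∏ v ∈ Q, AS.laurent (A v) (z₁ v) (z₂ v)) * (∏ w, C w) * φ y := by
            rw [hS]
            ring
  unfold Rop
  exact (key P (Finset.Subset.refl P) g).2

end Fermat.Agent.LT.T3.M.H474

end
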