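import Mathlib
import Fermat.Agent.LT.T3.M.GenSpec
import Fermat.Agent.LT.T3.H57.ROp
import Fermat.Agent.LT.T3.M.H474.ROpM

/-!
# Row LT, tower T3, station T3.18M, leaf G.2 `ROpMeanMC` (helper474, SPARE, OFF-MAIN)

`rOpMeanMC474 (K) : M.ROpMeanMC K` = the frozen Prop of `LT/T3/M/GenSpec.lean`
(helper14@a82eb8eb3, sha256 3b64610c), VERBATIM, unconditional.

Same proof as `rOpMC474` (induction on `P`, `κ₁` = the constant of `pushforward_haar57`), with
the lemmas of helper57 on `IsSph0Level` / `ActsBy` re-run for `IsMeanLevel` / `ActsByMean`: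
`mean_eq_of_inU0474`, `isLocMean_of474`, `isLocEigen_ofMean474`, `integral_pureOneMean474`.
-/

set_option autoImplicit false
set_option linter.style.haveILetI false
set_option linter.unusedSectionVars false

open IsDedekindDomain NumberField Topology MeasureTheory
open Fermat.Agent.LT.H556.A0
open Fermat.Agent.LT.T1 Fermat.Agent.LT.T1.H724 Fermat.Agent.LT.T1.H793
open Fermat.Agent.LT.T3
open Fermat.Agent.LT.T3.H57
open scoped ENNReal

noncomputable section

namespace Fermat.Agent.LT.T3.M.H474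

variable {K : Type} [Field K] [NumberField K]

section Inf

variable (hK : ∀ w : InfinitePlace K, w.IsComplex)

/-- `φ(y x) = φ(y ι(π x))` on `U₀`. -/
theorem mean_eq_of_inU0474 {n : ℕ} (e : InfinitePlace K ≃ Fin n) (𝔫 : Ideal (𝓞 K))
    (m : InfinitePlace K → ℝ → ℂ) (φ : G K → ℂ) (hφ : M.IsMeanLevel K 𝔫 m φ) (y x : G K)
    (hx : InU057 𝔫 x) :
    φ (y * x) = φ (y * embFin57 hK e (piInf57 e x)) := by
  have hu := inLevelGroup_of57 hK 𝔫 x hx
  rw [embFin_piInf57]
  have := hφ.level_inv _ hu (y * infEmb57 hK (fun w => AS.infGL K w x))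
  rw [mul_assoc, mul_inv_cancel_left] at this
  exact this

/-- `s ↦ φ(y ι_w(s))` is `IsLocMean (m w)` for `φ` of `IsMeanLevel`. -/
theorem isLocMean_of474 (𝔫 : Ideal (𝓞 K)) (m : InfinitePlace K → ℝ → ℂ) (φ : G K → ℂ)
    (hφ : M.IsMeanLevel K 𝔫 m φ) (y : G K) (w : InfinitePlace K) :
    M.IsLocMean (m w) (fun s : GL (Fin 2) ℂ => φ (y * infEmbAt57 hK w s)) := by
  refine ⟨?_, ?_, ?_, ?_⟩
  · exact hφ.cont.comp (continuous_const.mul (continuous_infEmbAt57 hK w))
  · intro k y' hk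
    rw [map_mul, ← mul_assoc]
    refine hφ.arch_compact w _ ⟨isLocalAtInf_infEmbAt57 hK w k, ?_, ?_⟩ _
    · rw [infComp_infEmbAt57]
      exact hk
    · intro hr
      exact absurd (hK w) (InfinitePlace.not_isComplex_iff_isReal.2 hr)
  · intro z r hr hz y'
    rw [map_mul, ← mul_assoc]
    refine hφ.arch_scalar w _ ⟨isLocalAtInf_infEmbAt57 hK w z, r, hr, ?_⟩ _
    rw [infComp_infEmbAt57]
    exact hz
  · intro d hd Y hY y'
    have h := hφ.mean w d hd (fun α β => infEmbAt57 hK w (Y α β))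
      (fun α β => ⟨isLocalAtInf_infEmbAt57 hK w _, by rw [infComp_infEmbAt57]; exact hY α β⟩)
      (y * infEmbAt57 hK w y')
    simp only [map_mul, ← mul_assoc]
    exact h

end Inf

/-- `y ↦ φ(g ι₀(y))` is `AS.IsLocEigen` for `φ` of `IsMeanLevel`, Hecke-eigen at `v₀ ∤ 𝔫`. -/
theorem isLocEigen_ofMean474 (𝔫 : Ideal (𝓞 K)) (v₀ : HeightOneSpectrum (𝓞 K))
    (hv₀ : ¬ v₀.asIdeal ∣ 𝔫) (m : InfinitePlace K → ℝ → ℂ) (φ : G K → ℂ)
    (hφ : M.IsMeanLevel K 𝔫 m φ) (a b : ℂ)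
    (he : IsHeckeEigenAt φ v₀ a b) (g : G K) :
    AS.IsLocEigen v₀ (fun y : GL (Fin 2) (v₀.adicCompletion K) => φ (g * finEmb57 v₀ y)) a b := by
  classical
  refine ⟨?_, ?_, ?_⟩
  · intro k y hk
    rw [map_mul, ← mul_assoc]
    exact hφ.level_inv _ (inLevelGroup_finEmb57 𝔫 v₀ hv₀ k hk) _
  · intro H hH y
    have hsys : IsHeckeCosetSystem v₀ (H.image (finEmb57 (K := K) v₀)) := by
      refine ⟨?_, ?_, ?_⟩
      · rw [Finset.card_image_of_injective _ (finEmb_injective57 v₀)]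
        exact hH.1
      · intro h' hh'
        obtain ⟨h, hh, rfl⟩ := Finset.mem_image.1 hh'
        refine ⟨isLocalAtFin_finEmb57 v₀ h, ?_, ?_⟩
        · intro i j
          rw [finComp_finEmb57]
          exact (hH.2.1 h hh).1 i j
        · rw [finComp_finEmb57]
          exact (hH.2.1 h hh).2
      · intro h₁ hh₁ h₂ hh₂ hne hint
        obtain ⟨a₁, ha₁, rfl⟩ := Finset.mem_image.1 hh₁
        obtain ⟨a₂, ha₂, rfl⟩ := Finset.mem_image.1 hh₂
        have hne' : a₁ ≠ a₂ := fun h => hne (by rw [h])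
        refine hH.2.2 a₁ ha₁ a₂ ha₂ hne' fun i j => ?_
        have := hint i j
        rwa [← map_inv, ← map_mul, finComp_finEmb57] at this
    have := he.1 _ hsys (g * finEmb57 v₀ y)
    rw [Finset.sum_image (fun x _ y _ hxy => finEmb_injective57 v₀ hxy)] at this
    rw [← this]
    refine Finset.sum_congr rfl fun h _ => ?_
    rw [map_mul, ← mul_assoc]
  · intro z c hc hz y
    rw [map_mul, ← mul_assoc]
    refine he.2 _ ⟨isLocalAtFin_finEmb57 v₀ z, c, hc, ?_⟩ _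
    rw [finComp_finEmb57]
    exact hz

section Int

variable (hK : ∀ w : InfinitePlace K, w.IsComplex)
variable [MeasurableSpace (G K)] [BorelSpace (G K)]

include hK in
/-- The integral of `φ(y ·) f¹` over `GL₂(𝔸_K)`, general archimedean parameter. -/
theorem integral_pureOneMean474 {n : ℕ} (e : InfinitePlace K ≃ Fin n) (𝔫 : Ideal (𝓞 K))
    (h𝔫 : 𝔫 ≠ ⊥) [MeasurableSpace (GL (Fin 2) ℂ)] [BorelSpace (GL (Fin 2) ℂ)]
    (μ : Measure (G K)) (μc : Measure (GL (Fin 2) ℂ)) [μc.IsHaarMeasure] (c : ℝ)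
    (hc : ∀ f : (Fin n → GL (Fin 2) ℂ) → ℂ, Continuous f → HasCompactSupport f →
      IntegrableOn (fun x => f (piInf57 e x)) {x : G K | InU057 𝔫 x} μ ∧
      ∫ x in {x : G K | InU057 𝔫 x}, f (piInf57 e x) ∂μ
        = c • ∫ t, f t ∂(Measure.pi fun _ : Fin n => μc))
    (F : InfinitePlace K → GL (Fin 2) ℂ → ℂ) (hF : ∀ w, AS.IsCplxTest (F w))
    (C : InfinitePlace K → ℂ) (m : InfinitePlace K → ℝ → ℂ)
    (hC : ∀ w, M.ActsByMean μc (F w) (m w) (C w))
    (φ : G K → ℂ) (hφ : M.IsMeanLevel K 𝔫 m φ) (y : G K) :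
    Integrable (fun x => φ (y * x) * pureOne57 𝔫 F x) μ ∧
      ∫ x, φ (y * x) * pureOne57 𝔫 F x ∂μ = (c : ℂ) * (∏ w, C w) * φ y := by
  classical
  haveI := secondCountable_GL2C57
  haveI := locallyCompact_GL2C57
  have hUm : MeasurableSet {x : G K | InU057 𝔫 x} := (isOpen_inU057 𝔫 h𝔫).measurableSet
  obtain ⟨Φ, hΦ⟩ : ∃ Φ : (Fin n → GL (Fin 2) ℂ) → ℂ, Φ = fun t => φ (y * embFin57 hK e t) :=
    ⟨_, rfl⟩
  have hΦc : Continuous Φ := by
    rw [hΦ]
    exact hφ.cont.comp (continuous_const.mul (continuous_embFin57 hK e))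
  obtain ⟨Q, hQ⟩ : ∃ Q : (Fin n → GL (Fin 2) ℂ) → ℂ,
      Q = fun t => Φ t * ∏ i, F (e.symm i) (t i) := ⟨_, rfl⟩
  have hQc : Continuous Q := by
    rw [hQ]
    exact hΦc.mul (continuous_finsetProd _ fun i _ => (hF _).cont.comp (continuous_apply i))
  have hQs : HasCompactSupport Q := by
    rw [hQ]
    exact hasCompactSupport_mul_prod57 n Φ (fun i => F (e.symm i)) (fun i => (hF _).supp)
  obtain ⟨hint, hval⟩ := hc Q hQc hQs
  have hfun : (fun x => φ (y * x) * pureOne57 𝔫 F x)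
      = Set.indicator {x : G K | InU057 𝔫 x} (fun x => Q (piInf57 e x)) := by
    funext x
    by_cases hx : InU057 𝔫 x
    · rw [Set.indicator_of_mem (show x ∈ {x : G K | InU057 𝔫 x} from hx)]
      unfold pureOne57
      rw [if_pos hx, hQ, hΦ]
      simp only
      rw [← mean_eq_of_inU0474 hK e 𝔫 m φ hφ y x hx]
      congr 1
      exact (Equiv.prod_comp e.symm (fun w => F w (AS.infGL K w x))).symm
    · rw [Set.indicator_of_notMem (show x ∉ {x : G K | InU057 𝔫 x} from hx)]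
      unfold pureOne57
      rw [if_neg hx, mul_zero]
  rw [hfun]
  refine ⟨(integrable_indicator_iff hUm).2 hint, ?_⟩
  rw [integral_indicator hUm, hval]
  have hpi := integral_pi_eigen57 μc n Φ hΦc (fun i => F (e.symm i)) (fun i => (hF _).cont)
    (fun i => (hF _).supp) (fun i => C (e.symm i)) ?_
  · have hQint : ∫ t, Q t ∂(Measure.pi fun _ : Fin n => μc)
        = ∫ t, Φ t * ∏ i, F (e.symm i) (t i) ∂(Measure.pi fun _ : Fin n => μc) := by rw [hQ]
    rw [hQint, hpi, Complex.real_smul, Equiv.prod_comp e.symm C]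
    have h1 : Φ 1 = φ y := by rw [hΦ]; simp
    rw [h1]
    ring
  · intro i t
    have hΨ := isLocMean_of474 hK 𝔫 m φ hφ (y * embFin57 hK e t) (e.symm i)
    have hact := hC (e.symm i) _ hΨ 1
    simp only [one_mul, map_one, mul_one] at hact
    have hupd : ∀ s : GL (Fin 2) ℂ, Function.update t i (t i * s) = t * Pi.mulSingle i s := by
      intro s
      funext j
      by_cases hj : j = i
      · subst hj
        simp
      · simp [Function.update_of_ne hj, Pi.mulSingle_eq_of_ne hj]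
    have hΦs : ∀ s : GL (Fin 2) ℂ, Φ (Function.update t i (t i * s))
        = φ (y * embFin57 hK e t * infEmbAt57 hK (e.symm i) s) := by
      intro s
      rw [hΦ]
      simp only
      rw [hupd, map_mul, embFin_mulSingle57, mul_assoc]
    simp_rw [hΦs]
    rw [hact, hΦ]

end Int

/-- **G.2 `ROpMeanMC`, unconditional.** -/
theorem rOpMeanMC474 (K : Type) [Field K] [NumberField K] : M.ROpMeanMC K := by
  classical
  letI : MeasurableSpace (G K) := borel (G K)
  haveI : BorelSpace (G K) := ⟨rfl⟩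
  letI : MeasurableSpace (GL (Fin 2) ℂ) := borel (GL (Fin 2) ℂ)
  haveI : BorelSpace (GL (Fin 2) ℂ) := ⟨rfl⟩
  haveI := secondCountable_GL2C57
  haveI := locallyCompact_GL2C57
  intro hK μ hμ μc hμc 𝔫 h𝔫 P hP
  haveI := hμ
  haveI := hμc
  obtain ⟨n, ⟨e⟩⟩ : ∃ n, Nonempty (InfinitePlace K ≃ Fin n) := ⟨_, ⟨Fintype.equivFin _⟩⟩
  obtain ⟨c, hc0, hc⟩ := pushforward_haar57 μ (Measure.pi fun _ : Fin n => μc)
    {x : G K | InU057 𝔫 x} (isOpen_inU057 𝔫 h𝔫) (piInf57 e) (continuous_piInf57 e)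
    (embFin57 hK e) (piInf_embFin57 hK e) (fun t x hx => inU0_embFin_mul57 hK e 𝔫 t x hx)
    (inU0_one57 𝔫) (fun C hC => measure_lt_top57 hK e 𝔫 μ C hC)
  refine ⟨(c : ℂ), by exact_mod_cast hc0.ne', ?_⟩
  intro A C m f₀ F hf₀ hRex hA hF hC φ hφ a b z₁ z₂ he hab hb hb0 g
  have hB := fun y => integral_pureOneMean474 hK e 𝔫 h𝔫 μ μc c hc F hF C m hC φ hφ y
  have key : ∀ Q : Finset (HeightOneSpectrum (𝓞 K)), Q ⊆ P → ∀ y : G K,
      Integrable (fun x => φ (y * x) * M.pureFnM K 𝔫 Q f₀ F x) μ ∧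
        ∫ x, φ (y * x) * M.pureFnM K 𝔫 Q f₀ F x ∂μ
          = (c : ℂ) * (∏ v ∈ Q, AS.laurent (A v) (z₁ v) (z₂ v)) * (∏ w, C w) * φ y := by
    intro Q
    induction Q using Finset.induction_on with
    | empty =>
      intro _ y
      have hfun : (fun x => φ (y * x) * M.pureFnM K 𝔫 ∅ f₀ F x)
          = fun x => φ (y * x) * pureOne57 𝔫 F x := by
        funext x
        rw [pureFnM_empty474]
      rw [hfun, Finset.prod_empty, mul_one]
      exact hB y
    | insert v₀ Q hv₀Q ih =>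
      intro hsub y
      have hv₀P : v₀ ∈ P := hsub (Finset.mem_insert_self v₀ Q)
      have hQP : Q ⊆ P := fun v hv => hsub (Finset.mem_insert_of_mem hv)
      have hv₀ : ¬ v₀.asIdeal ∣ 𝔫 := hP v₀ hv₀P
      obtain ⟨R, hR⟩ := hRex v₀ hv₀P
      have ihQ := ih hQP
      have hsum : ∀ x, φ (y * x) * M.pureFnM K 𝔫 (insert v₀ Q) f₀ F x
          = ∑ h ∈ R, f₀ v₀ h
              * (φ (y * x) * M.pureFnM K 𝔫 Q f₀ F ((finEmb57 v₀ h)⁻¹ * x)) := by
        intro x
        rw [pureFnM_insert474 𝔫 Q v₀ hv₀Q hv₀ f₀ F (hf₀ v₀ hv₀P) R hR x, Finset.mul_sum]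
        exact Finset.sum_congr rfl fun h _ => by ring
      have hterm_int : ∀ h : GL (Fin 2) (v₀.adicCompletion K),
          Integrable (fun x => φ (y * x)
            * M.pureFnM K 𝔫 Q f₀ F ((finEmb57 v₀ h)⁻¹ * x)) μ := by
        intro h
        have := ((ihQ (y * finEmb57 v₀ h)).1).comp_mul_left (finEmb57 v₀ h)⁻¹
        refine this.congr (Filter.Eventually.of_forall fun x => ?_)
        simp only [mul_assoc, mul_inv_cancel_left]
      have hterm : ∀ h : GL (Fin 2) (v₀.adicCompletion K),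
          ∫ x, φ (y * x) * M.pureFnM K 𝔫 Q f₀ F ((finEmb57 v₀ h)⁻¹ * x) ∂μ
            = (c : ℂ) * (∏ v ∈ Q, AS.laurent (A v) (z₁ v) (z₂ v)) * (∏ w, C w)
                * φ (y * finEmb57 v₀ h) := by
        intro h
        rw [← (ihQ (y * finEmb57 v₀ h)).2,
          ← integral_mul_left_eq_self
            (fun x => φ (y * finEmb57 v₀ h * x) * M.pureFnM K 𝔫 Q f₀ F x) (finEmb57 v₀ h)⁻¹]
        refine integral_congr_ae (Filter.Eventually.of_forall fun x => ?_)
        simp only [mul_assoc, mul_inv_cancel_left]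
      have hfun : (fun x => φ (y * x) * M.pureFnM K 𝔫 (insert v₀ Q) f₀ F x)
          = fun x => ∑ h ∈ R, f₀ v₀ h
              * (φ (y * x) * M.pureFnM K 𝔫 Q f₀ F ((finEmb57 v₀ h)⁻¹ * x)) := by
        funext x
        exact hsum x
      rw [hfun]
      refine ⟨integrable_finsetSum _ fun h _ => (hterm_int h).const_mul _, ?_⟩
      rw [integral_finsetSum _ (fun h _ => (hterm_int h).const_mul _)]
      simp_rw [integral_const_mul, hterm]
      have hS := hA v₀ hv₀P (fun u => φ (y * finEmb57 v₀ u)) (a v₀) (b v₀) (z₁ v₀) (z₂ v₀)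
        (isLocEigen_ofMean474 𝔫 v₀ hv₀ m φ hφ (a v₀) (b v₀) (he v₀ hv₀P) y) (hab v₀ hv₀P)
        (hb v₀ hv₀P) (hb0 v₀ hv₀P) R hR 1
      simp only [one_mul, map_one, mul_one] at hS
      rw [Finset.prod_insert hv₀Q]
      calc ∑ h ∈ R, f₀ v₀ h * ((c : ℂ) * (∏ v ∈ Q, AS.laurent (A v) (z₁ v) (z₂ v))
              * (∏ w, C w) * φ (y * finEmb57 v₀ h))
          = (c : ℂ) * (∏ v ∈ Q, AS.laurent (A v) (z₁ v) (z₂ v)) * (∏ w, C w)
              * ∑ h ∈ R, f₀ v₀ h * φ (y * finEmb57 v₀ h) := by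
            rw [Finset.mul_sum]
            exact Finset.sum_congr rfl fun h _ => by ring
        _ = (c : ℂ) * (AS.laurent (A v₀) (z₁ v₀) (z₂ v₀)
              * ∏ v ∈ Q, AS.laurent (A v) (z₁ v) (z₂ v)) * (∏ w, C w) * φ y := by
            rw [hS]
            ring
  unfold Rop
  exact (key P (Finset.Subset.refl P) g).2

example (K : Type) [Field K] [NumberField K] : M.ROpMeanMC K := rOpMeanMC474 K

end Fermat.Agent.LT.T3.M.H474

end
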